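/-
Fermat/Agent/Jac/SectionOfChart14/Snake.lean  (helper14, programme JAC, brick R2a-1)

Blueprint 271, Claim 4 (snake).  For a global section `σ` of `M` such that multiplication by `σ`
is injective chartwise, `0 → O → M → M/σ·O → 0` is a short exact sequence of two-chart modules.
If moreover `σ` generates `H⁰(M)` and `H¹(M) = 0`, the connecting map is an isomorphism
`H⁰(M/σ·O) ≃ H¹(O)`; combined with `H⁰(M/σ·O) ≃ N0/R0 σ0` this gives `N0/R0 σ0 ≃ H¹(O)`.
-/
import Fermat.Agent.Jac.SectionOfChart14.Inject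

set_option autoImplicit false
set_option linter.unusedSectionVars false

universe u

open TensorProduct Polynomial

namespace Fermat.Agent.Jac.SectionOfChart14

open Fermat.Agent.Jac.LineOps39 Fermat.Agent.Jac.Riemann4 Fermat.Agent.Jac.P1CohChi

variable {A R0 R1 R01 : Type u} [CommRing A] [CommRing R0] [CommRing R1] [CommRing R01]
  [Algebra A R0] [Algebra A R1] [Algebra A R01] [Algebra R0 R01] [Algebra R1 R01]
  [IsScalarTower A R0 R01] [IsScalarTower A R1 R01]

variable (c : TwoChart A R0 R1 R01) {M : QC2 A R0 R1 R01}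

/-- `0 → O → M → M/σ·O → 0` is chartwise exact when multiplication by `σ` is injective. -/
theorem shortExact_section (σ : M.H0) (h0 : Function.Injective (homOfSection M σ).f0)
    (h1 : Function.Injective (homOfSection M σ).f1)
    (h01 : Function.Injective (homOfSection M σ).f01) :
    Basic.ShortExact (homOfSection M σ) (sectionQuotHom c σ) where
  inj0 := h0
  inj1 := h1
  inj01 := h01
  exact0 := by
    intro y
    show (Submodule.span R0 {σ.1.1}).mkQ y = 0 ↔ _
    rw [Submodule.mkQ_apply, Submodule.Quotient.mk_eq_zero, Submodule.mem_span_singleton]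
    exact Iff.rfl
  exact1 := by
    intro y
    show (Submodule.span R1 {σ.1.2}).mkQ y = 0 ↔ _
    rw [Submodule.mkQ_apply, Submodule.Quotient.mk_eq_zero, Submodule.mem_span_singleton]
    exact Iff.rfl
  exact01 := by
    intro y
    show (sectionPair σ).S01.mkQ y = 0 ↔ _
    have hS : (sectionPair σ).S01 = Submodule.span R01 {M.r0 σ.1.1} :=
      span_image_span_singleton M.r0 σ.1.1
    rw [Submodule.mkQ_apply, Submodule.Quotient.mk_eq_zero, hS, Submodule.mem_span_singleton]
    exact Iff.rfl
  surj0 := Submodule.mkQ_surjective _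
  surj1 := Submodule.mkQ_surjective _
  surj01 := Submodule.mkQ_surjective _

/-- The constant section `a` of the structure sheaf. -/
def constSection (a : A) : (QC2.unit : QC2 A R0 R1 R01).H0 :=
  ⟨(algebraMap A R0 a, algebraMap A R1 a), by
    rw [mem_H0_iff]
    show algebraMap R0 R01 (algebraMap A R0 a) = algebraMap R1 R01 (algebraMap A R1 a)
    rw [← IsScalarTower.algebraMap_apply, ← IsScalarTower.algebraMap_apply]⟩

lemma mapH0_homOfSection_constSection (σ : M.H0) (a : A) :
    Basic.mapH0 (homOfSection M σ) (constSection a) = a • σ := by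
  apply Subtype.ext
  apply Prod.ext
  · show algebraMap A R0 a • σ.1.1 = a • σ.1.1
    rw [algebraMap_smul]
  · show algebraMap A R1 a • σ.1.2 = a • σ.1.2
    rw [algebraMap_smul]

/-- **Claim 4 (snake).** If `σ` generates `H⁰(M)`, `H¹(M) = 0` and multiplication by `σ` is
injective, the connecting homomorphism `H⁰(M/σ·O) → H¹(O)` is bijective. -/
theorem delta_bijective (σ : M.H0) (hgen : ∀ τ : M.H0, ∃ a : A, τ = a • σ)
    (hH1 : Subsingleton M.H1) (hse : Basic.ShortExact (homOfSection M σ) (sectionQuotHom c σ)) :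
    Function.Bijective hse.δ := by
  constructor
  · rw [injective_iff_map_eq_zero]
    intro x hx
    obtain ⟨τ, rfl⟩ := (hse.exact_mapH0_δ x).1 hx
    obtain ⟨a, rfl⟩ := hgen τ
    rw [← mapH0_homOfSection_constSection σ a]
    exact hse.exact_mapH0_mapH0.apply_apply_eq_zero _
  · intro y
    have : Basic.mapH1 (homOfSection M σ) y = 0 := Subsingleton.elim _ _
    exact (hse.exact_δ_mapH1 y).1 this

/-- The connecting isomorphism `H⁰(M/σ·O) ≃ H¹(O)`. -/
noncomputable def deltaEquiv (σ : M.H0) (hgen : ∀ τ : M.H0, ∃ a : A, τ = a • σ)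
    (hH1 : Subsingleton M.H1) (hse : Basic.ShortExact (homOfSection M σ) (sectionQuotHom c σ)) :
    (sectionQuot c σ).H0 ≃ₗ[A] (QC2.unit : QC2 A R0 R1 R01).H1 :=
  LinearEquiv.ofBijective hse.δ (delta_bijective c σ hgen hH1 hse)

/-- **Claim 4.** `N0 / R0 σ0 ≃ H¹(O)` as `A`-modules. -/
noncomputable def Q0EquivH1Unit [Module.Finite R1 M.N1] (hF : M.FiniteOverLine c) (σ : M.H0)
    (hgen : ∀ τ : M.H0, ∃ a : A, τ = a • σ) {ι : Type*} (I : ι → Ideal R1)
    (hev : ∀ i, Function.Surjective (ev M (I i)))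
    (hInf : ∀ P : Ideal R1, P.IsPrime → c.s ∈ P → ∃ i, I i ≤ P)
    (hH1 : Subsingleton M.H1) (hse : Basic.ShortExact (homOfSection M σ) (sectionQuotHom c σ)) :
    Q0 M σ ≃ₗ[A] (QC2.unit : QC2 A R0 R1 R01).H1 :=
  (sectionQuotH0Equiv c hF σ hgen I hev hInf).symm.trans (deltaEquiv c σ hgen hH1 hse)

end Fermat.Agent.Jac.SectionOfChart14
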