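/-
Fermat/Agent/Jac/SectionOfChart14/Full.lean  (helper14, programme JAC, brick R2a-1)

Blueprint 271, Claims 1-4 assembled: in the setting of `section_of_chart`, with `R0`, `R1` free over
`A` with integral fibres and projective chart modules, the normalised section `σ` of `M` is
injective chartwise, `0 → O → M → M/σ·O → 0` is short exact, and `N0 / R0 σ0 ≃ H¹(O)`.
-/
import Fermat.Agent.Jac.SectionOfChart14.Snake

set_option autoImplicit false
set_option linter.unusedSectionVars false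

universe u

open TensorProduct Polynomial

namespace Fermat.Agent.Jac.SectionOfChart14

open Fermat.Agent.Jac.LineOps39 Fermat.Agent.Jac.Riemann4 Fermat.Agent.Jac.P1CohChi

variable {A R0 R1 R01 : Type u} [CommRing A] [CommRing R0] [CommRing R1] [CommRing R01]
  [Algebra A R0] [Algebra A R1] [Algebra A R01] [Algebra R0 R01] [Algebra R1 R01]
  [IsScalarTower A R0 R01] [IsScalarTower A R1 R01]

variable (c : TwoChart A R0 R1 R01) (M : QC2 A R0 R1 R01)

/-- The functional "value at the rigidified point" on `N1`. -/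
def valueAt {I1 : Ideal R1} (ρ : Fib M I1 ≃ₗ[A] A) : M.N1 →ₗ[A] A :=
  ρ.toLinearMap ∘ₗ ((I1 • ⊤ : Submodule R1 M.N1).mkQ.restrictScalars A)

@[simp] lemma valueAt_apply {I1 : Ideal R1} (ρ : Fib M I1 ≃ₗ[A] A) (x : M.N1) :
    valueAt M ρ x = ρ (Submodule.Quotient.mk x) := rfl

/-- **Blueprint 271, Claims 1-4.** -/
theorem section_of_chart_full [Module.Finite R1 M.N1] (hF : M.FiniteOverLine c)
    (hP : M.ProjOverLine c) (hchi : ∀ p : PrimeSpectrum A, M.chi p = 1) {ι : Type*}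
    (pts : InfPoints c ι) (i₀ : ι) (ρ : Fib M (pts.I i₀) ≃ₗ[A] A)
    (h1 : ∀ i, Subsingleton (downTwist c M (ptPair c (pts.I i))).H1)
    [Module.Free A R0] [Module.Free A R1]
    (hdom0 : ∀ p : PrimeSpectrum A, IsDomain (p.asIdeal.ResidueField ⊗[A] R0))
    (hdom1 : ∀ p : PrimeSpectrum A, IsDomain (p.asIdeal.ResidueField ⊗[A] R1))
    [Module.Projective R0 M.N0] [Module.Projective R1 M.N1] :
    Subsingleton M.H1 ∧ GoodH0 M ∧
    ∃ σ : M.H0, ρ (Submodule.Quotient.mk σ.1.2) = 1 ∧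
      (∀ τ : M.H0, τ = (H0EquivOfRigid c M hF hP hchi (pts.s_mem i₀) ρ (h1 i₀) τ) • σ) ∧
      (∀ a : A, a • σ = 0 → a = 0) ∧
      Basic.ShortExact (homOfSection M σ) (sectionQuotHom c σ) ∧
      Subsingleton (sectionQuot c σ).H1 ∧ Function.Bijective (sectionQuot c σ).r1 ∧
      Module.Finite A (Q0 M σ) ∧ Nonempty ((sectionQuot c σ).H0 ≃ₗ[A] Q0 M σ) ∧
      Nonempty (Q0 M σ ≃ₗ[A] (QC2.unit : QC2 A R0 R1 R01).H1) := by
  obtain ⟨hH1, hgood, σ, hσ, hgen', hfree, q1, q2, q3, q4⟩ :=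
    section_of_chart c M hF hP hchi pts i₀ ρ h1
  refine ⟨hH1, hgood, σ, hσ, hgen', hfree, ?_⟩
  have := hF.fin1
  have := hP.proj1
  obtain ⟨i0, i1, i01⟩ := smul_sigma_injective c hdom0 hdom1 σ (valueAt M ρ) hσ
  have hse := shortExact_section c σ i0 i1 i01
  have hgen : ∀ τ : M.H0, ∃ a : A, τ = a • σ := fun τ => ⟨_, hgen' τ⟩
  have hev : ∀ i, Function.Surjective (ev M (pts.I i)) :=
    fun i => ev_surjective c M (pts.s_mem i) (h1 i)
  exact ⟨hse, q1, q2, q3, q4, ⟨Q0EquivH1Unit c hF σ hgen pts.I hev pts.exhaust hH1 hse⟩⟩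

end Fermat.Agent.Jac.SectionOfChart14
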