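/-
Fermat/Agent/Jac/SectionOfChart14/Eval.lean  (helper14, programme JAC, brick R2a-1)

Blueprint 271, Claim 1, in abstract Core vocabulary.  A "point at infinity" of the two-chart ring
`c` is an ideal `I1` of `R1` containing `s`.  For a two-chart module `M` with `H¹(M(-Q)) = 0`:
`H¹(M) = 0`, and evaluation `H⁰(M) → M.N1 / I1 M.N1` at the point is surjective; it is bijective
if `M` is finite projective over the line, `χ(M_p) = 1` for all `p`, and the fibre is an invertible
`A`-module.
-/
import Fermat.Agent.Jac.P1CohChi.Main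
import Fermat.Agent.Jac.LineOps39.Point
import Fermat.Agent.Jac.Riemann4.Basic

set_option autoImplicit false
set_option linter.unusedSectionVars false

universe u

open TensorProduct

namespace Fermat.Agent.Jac.SectionOfChart14

open Fermat.Agent.Jac.LineOps39 Fermat.Agent.Jac.Riemann4

variable {A R0 R1 R01 : Type u} [CommRing A] [CommRing R0] [CommRing R1] [CommRing R01]
  [Algebra A R0] [Algebra A R1] [Algebra A R01] [Algebra R0 R01] [Algebra R1 R01]
  [IsScalarTower A R0 R01] [IsScalarTower A R1 R01]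

variable (c : TwoChart A R0 R1 R01) (M : QC2 A R0 R1 R01) (I1 : Ideal R1)

/-- The fibre of `M` at the closed subscheme `V(I1)` of chart 1. -/
abbrev Fib : Type u := M.N1 ⧸ (I1 • ⊤ : Submodule R1 M.N1)

/-- The ideal pair of the closure of `V(I1)`. -/
abbrev ptPair : IdealPair R0 R1 R01 := IdealPair.ofChart1 c I1

/-- `0 → M(-Q) → M → M|_Q → 0` is chartwise exact. -/
theorem shortExact :
    Basic.ShortExact (downTwistHom c M (ptPair c I1)) (restrictToHom c M (ptPair c I1)) where
  inj0 := subHom_f0_injective c M _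
  inj1 := subHom_f1_injective c M _
  inj01 := subHom_f01_injective c M _
  exact0 := exact_f0 c M _
  exact1 := exact_f1 c M _
  exact01 := exact_f01 c M _
  surj0 := quotHom_f0_surjective c M _
  surj1 := quotHom_f1_surjective c M _
  surj01 := quotHom_f01_surjective c M _

/-- Evaluation of global sections in the fibre at `V(I1)`. -/
def ev : M.H0 →ₗ[A] Fib M I1 :=
  ((I1 • ⊤ : Submodule R1 M.N1).mkQ.restrictScalars A) ∘ₗ (LinearMap.snd A M.N0 M.N1) ∘ₗ
    M.H0.subtype

@[simp] lemma ev_apply (σ : M.H0) : ev M I1 σ = Submodule.Quotient.mk σ.1.2 := rfl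

variable {I1}

lemma hs0 (hs : c.s ∈ I1) : c.s - algebraMap A R1 0 ∈ I1 := by
  rw [map_zero, sub_zero]; exact hs

/-- `H¹(M(-Q)) = 0` implies `H¹(M) = 0`. -/
theorem subsingleton_H1 (hs : c.s ∈ I1)
    (h : Subsingleton (downTwist c M (ptPair c I1)).H1) : Subsingleton M.H1 := by
  have hse := shortExact c M I1
  have h2 : Subsingleton (restrictTo c M (ptPair c I1)).H1 :=
    subsingleton_H1_restrictTo_ofChart1 c M I1 0 (hs0 c hs)
  refine ⟨fun x y => ?_⟩
  have hx : Basic.mapH1 (restrictToHom c M (ptPair c I1)) (x - y) = 0 := Subsingleton.elim _ _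
  obtain ⟨z, hz⟩ := (hse.exact_mapH1_mapH1 (x - y)).1 hx
  have : z = 0 := Subsingleton.elim _ _
  rw [this, map_zero] at hz
  exact sub_eq_zero.1 hz.symm

/-- `ev` is the map on `H⁰` induced by `M → M|_Q`, up to the identification `H⁰(M|_Q) ≃ Fib`. -/
lemma ev_eq (hs : c.s ∈ I1) (σ : M.H0) :
    ev M I1 σ = H0RestrictToOfChart1 c M I1 0 (hs0 c hs)
      (Basic.mapH0 (restrictToHom c M (ptPair c I1)) σ) := rfl

/-- If `H¹(M(-Q)) = 0`, evaluation at `Q` is surjective on global sections. -/
theorem ev_surjective (hs : c.s ∈ I1)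
    (h : Subsingleton (downTwist c M (ptPair c I1)).H1) : Function.Surjective (ev M I1) := by
  have hse := shortExact c M I1
  intro q
  let e := H0RestrictToOfChart1 c M I1 0 (hs0 c hs)
  have hδ : hse.δ (e.symm q) = 0 := Subsingleton.elim _ _
  obtain ⟨σ, hσ⟩ := (hse.exact_mapH0_δ (e.symm q)).1 hδ
  refine ⟨σ, ?_⟩
  rw [ev_eq c M hs, hσ, LinearEquiv.apply_symm_apply]

/-- The kernel of evaluation at `Q` consists of the sections of `M(-Q)`. -/
theorem ker_ev (hs : c.s ∈ I1) :
    LinearMap.ker (ev M I1) = LinearMap.range (Basic.mapH0 (downTwistHom c M (ptPair c I1))) := by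
  have hse := shortExact c M I1
  ext σ
  rw [LinearMap.mem_ker, ev_eq c M hs, LinearEquiv.map_eq_zero_iff, LinearMap.mem_range]
  exact hse.exact_mapH0_mapH0 σ

end Fermat.Agent.Jac.SectionOfChart14
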