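/-
Fermat/Agent/Jac/SectionOfChart14/Rank.lean  (helper14, programme JAC, brick R2a-1)

Blueprint 271, Claim 1 (continued): the rank count.  If `M` is finite projective over the line,
`χ(M_p) = 1` for all `p`, `H¹(M(-Q)) = 0` and the fibre of `M` at `Q` is an invertible `A`-module,
then evaluation at `Q` is an isomorphism `H⁰(M) ≃ M.N1 / I1 M.N1`.  For a rigidified point this
makes `H⁰(M)` free of rank one.
-/
import Fermat.Agent.Jac.SectionOfChart14.Eval

set_option autoImplicit false
set_option linter.unusedSectionVars false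

universe u

open TensorProduct

namespace Fermat.Agent.Jac.SectionOfChart14

open Fermat.Agent.Jac.LineOps39 Fermat.Agent.Jac.Riemann4 Fermat.Agent.Jac.P1CohChi

variable {A R0 R1 R01 : Type u} [CommRing A] [CommRing R0] [CommRing R1] [CommRing R01]
  [Algebra A R0] [Algebra A R1] [Algebra A R01] [Algebra R0 R01] [Algebra R1 R01]
  [IsScalarTower A R0 R01] [IsScalarTower A R1 R01]

/-- An invertible module has rank one at every prime. -/
lemma rankAtStalk_of_invertible (F : Type u) [AddCommGroup F] [Module A F]
    [Module.Invertible A F] (p : PrimeSpectrum A) : Module.rankAtStalk F p = 1 := by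
  unfold Module.rankAtStalk
  have : Module.Free (Localization.AtPrime p.asIdeal)
      (LocalizedModule p.asIdeal.primeCompl F) := Module.free_of_flat_of_isLocalRing
  exact Module.Invertible.finrank_eq_one _ _

/-- A surjection from a finite projective module of rank one onto an invertible module is
bijective. -/
theorem bijective_of_surjective_of_rank_one {P F : Type u} [AddCommGroup P] [Module A P]
    [AddCommGroup F] [Module A F] [Module.Finite A P] [Module.Projective A P]
    [Module.Invertible A F] (hP : ∀ p : PrimeSpectrum A, Module.rankAtStalk P p = 1)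
    (f : P →ₗ[A] F) (hf : Function.Surjective f) : Function.Bijective f := by
  refine ⟨?_, hf⟩
  obtain ⟨τ, hτ⟩ := Module.projective_lifting_property f LinearMap.id hf
  obtain ⟨e, he1, he2⟩ := (LinearMap.exact_subtype_ker_map f).splitSurjectiveEquiv
    (Subtype.val_injective) ⟨τ, hτ⟩
  -- the kernel is a direct summand of `P`
  have hfin : Module.Finite A (LinearMap.ker f) :=
    Module.Finite.of_surjective ((LinearMap.fst A _ _) ∘ₗ e.toLinearMap)
      (Prod.fst_surjective.comp e.surjective)
  have hproj : Module.Projective A (LinearMap.ker f) :=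
    Module.Projective.of_split (LinearMap.ker f).subtype ((LinearMap.fst A _ _) ∘ₗ e.toLinearMap)
      (by
        apply LinearMap.ext
        intro x
        have : (LinearMap.ker f).subtype x = e.symm (x, 0) := by
          rw [he1]; rfl
        simp only [LinearMap.coe_comp, LinearEquiv.coe_coe, Function.comp_apply, this,
          LinearEquiv.apply_symm_apply, LinearMap.fst_apply, LinearMap.id_coe, id_eq])
  have hrk : Module.rankAtStalk (R := A) (LinearMap.ker f) = 0 := by
    funext p
    have h1 := congrFun (Module.rankAtStalk_eq_of_equiv (R := A) e) p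
    rw [Module.rankAtStalk_prod, Pi.add_apply, hP p, rankAtStalk_of_invertible F p] at h1
    simpa using h1.symm
  have hsub : Subsingleton (LinearMap.ker f) := Module.rankAtStalk_eq_zero_iff_subsingleton.1 hrk
  rw [← LinearMap.ker_eq_bot]
  exact Submodule.eq_bot_of_subsingleton

variable (c : TwoChart A R0 R1 R01) (M : QC2 A R0 R1 R01) {I1 : Ideal R1}

/-- Under `H¹(M) = 0` and finiteness/projectivity over the line, `H⁰(M)` is good (A1b.T5) and
its rank at `p` is `χ(M_p)`. -/
theorem rankAtStalk_H0 (hF : M.FiniteOverLine c) (hP : M.ProjOverLine c)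
    (h1 : Subsingleton M.H1) :
    GoodH0 M ∧ ∀ p : PrimeSpectrum A,
      haveI := (P1CohH0.T5 c M hF hP h1).1
      haveI := (P1CohH0.T5 c M hF hP h1).2.1
      (Module.rankAtStalk M.H0 p : ℤ) = M.chi p := by
  obtain ⟨fin, proj, bij⟩ := P1CohH0.T5 c M hF hP h1
  have hgood : GoodH0 M := ⟨fin, proj, bij⟩
  refine ⟨hgood, fun p => ?_⟩
  have hd : Function.Surjective M.d :=
    LinearMap.range_eq_top.1 (Submodule.Quotient.subsingleton_iff.1 h1)
  obtain ⟨-, -, e⟩ := chiField_of_good M hgood hd p.asIdeal.ResidueField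
  rw [QC2.chi, e, Module.rankAtStalk_eq]

/-- **Claim 1.** Evaluation at a point at infinity `Q` with invertible fibre is an isomorphism
`H⁰(M) ≃ M.N1 / I1 M.N1`, provided `H¹(M(-Q)) = 0` and `χ(M_p) = 1` for all `p`. -/
theorem ev_bijective (hF : M.FiniteOverLine c) (hP : M.ProjOverLine c)
    (hchi : ∀ p : PrimeSpectrum A, M.chi p = 1) (hs : c.s ∈ I1)
    [Module.Invertible A (Fib M I1)]
    (h : Subsingleton (downTwist c M (ptPair c I1)).H1) : Function.Bijective (ev M I1) := by
  have h1 : Subsingleton M.H1 := subsingleton_H1 c M hs h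
  obtain ⟨hgood, hrk⟩ := rankAtStalk_H0 c M hF hP h1
  have := hgood.fin
  have := hgood.proj
  refine bijective_of_surjective_of_rank_one (fun p => ?_) (ev M I1) (ev_surjective c M hs h)
  have := hrk p
  rw [hchi p] at this
  exact_mod_cast this

/-- Evaluation at `Q` as a linear equivalence. -/
noncomputable def evEquiv (hF : M.FiniteOverLine c) (hP : M.ProjOverLine c)
    (hchi : ∀ p : PrimeSpectrum A, M.chi p = 1) (hs : c.s ∈ I1)
    [Module.Invertible A (Fib M I1)]
    (h : Subsingleton (downTwist c M (ptPair c I1)).H1) : M.H0 ≃ₗ[A] Fib M I1 :=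
  LinearEquiv.ofBijective (ev M I1) (ev_bijective c M hF hP hchi hs h)

/-- **Claim 1, rigidified form.** If the fibre of `M` at `Q` is trivialised by `ρ`, then `H⁰(M)` is
free of rank one: `σ ↦ ρ (σ(Q))` is an isomorphism `H⁰(M) ≃ A`. -/
noncomputable def H0EquivOfRigid (hF : M.FiniteOverLine c) (hP : M.ProjOverLine c)
    (hchi : ∀ p : PrimeSpectrum A, M.chi p = 1) (hs : c.s ∈ I1) (ρ : Fib M I1 ≃ₗ[A] A)
    (h : Subsingleton (downTwist c M (ptPair c I1)).H1) : M.H0 ≃ₗ[A] A :=
  haveI : Module.Invertible A (Fib M I1) := Module.Invertible.congr ρ.symm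
  (evEquiv c M hF hP hchi hs h).trans ρ

lemma H0EquivOfRigid_apply (hF : M.FiniteOverLine c) (hP : M.ProjOverLine c)
    (hchi : ∀ p : PrimeSpectrum A, M.chi p = 1) (hs : c.s ∈ I1) (ρ : Fib M I1 ≃ₗ[A] A)
    (h : Subsingleton (downTwist c M (ptPair c I1)).H1) (σ : M.H0) :
    H0EquivOfRigid c M hF hP hchi hs ρ h σ = ρ (Submodule.Quotient.mk σ.1.2) := rfl

end Fermat.Agent.Jac.SectionOfChart14
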