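/-
Fermat/Agent/Jac/SectionOfChart14/Generate.lean  (helper14, programme JAC, brick R2a-1)

Blueprint 271, Claim 2.  Let `σ` generate `H⁰(M)`.  At every point at infinity `Q = V(I1)` where
evaluation is surjective, `σ.1.2` generates the fibre: `N1 = R1 σ1 + I1 N1`.  If these points
exhaust the primes containing `s`, then `s` acts surjectively on `N1 / R1 σ1`.
-/
import Fermat.Agent.Jac.SectionOfChart14.Rank

set_option autoImplicit false
set_option linter.unusedSectionVars false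

universe u

open TensorProduct Pointwise

namespace Fermat.Agent.Jac.SectionOfChart14

open Fermat.Agent.Jac.LineOps39 Fermat.Agent.Jac.Riemann4 Fermat.Agent.Jac.P1CohChi

variable {A R0 R1 R01 : Type u} [CommRing A] [CommRing R0] [CommRing R1] [CommRing R01]
  [Algebra A R0] [Algebra A R1] [Algebra A R01] [Algebra R0 R01] [Algebra R1 R01]
  [IsScalarTower A R0 R01] [IsScalarTower A R1 R01]

variable (c : TwoChart A R0 R1 R01) (M : QC2 A R0 R1 R01)

/-- The cokernel of the section `σ` on the chart at infinity: `N1 / R1 σ1`. -/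
abbrev Q1 (σ : M.H0) : Type u := M.N1 ⧸ Submodule.span R1 {σ.1.2}

/-- The cokernel of the section `σ` on the finite chart: `N0 / R0 σ0`. -/
abbrev Q0 (σ : M.H0) : Type u := M.N0 ⧸ Submodule.span R0 {σ.1.1}

variable {M}

/-- If `σ` generates `H⁰(M)` and evaluation at `V(I1)` is surjective, then
`N1 = R1 σ1 + I1 N1`. -/
theorem exists_sub_smul_mem (σ : M.H0) (hgen : ∀ τ : M.H0, ∃ a : A, τ = a • σ) (I1 : Ideal R1)
    (hev : Function.Surjective (ev M I1)) (x : M.N1) :
    ∃ r : R1, x - r • σ.1.2 ∈ (I1 • ⊤ : Submodule R1 M.N1) := by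
  obtain ⟨τ, hτ⟩ := hev (Submodule.Quotient.mk x)
  obtain ⟨a, rfl⟩ := hgen τ
  refine ⟨algebraMap A R1 a, ?_⟩
  rw [ev_apply] at hτ
  have h2 : ((a • σ : M.H0) : M.N0 × M.N1).2 = algebraMap A R1 a • σ.1.2 := by
    rw [algebraMap_smul]; rfl
  rw [h2] at hτ
  rw [← Submodule.Quotient.mk_eq_zero, Submodule.Quotient.mk_sub, hτ, sub_self]

/-- `N1 / R1 σ1 = I1 • (N1 / R1 σ1)`. -/
theorem smul_top_Q1_eq_top (σ : M.H0) (hgen : ∀ τ : M.H0, ∃ a : A, τ = a • σ) (I1 : Ideal R1)
    (hev : Function.Surjective (ev M I1)) : (I1 • ⊤ : Submodule R1 (Q1 M σ)) = ⊤ := by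
  rw [eq_top_iff]
  intro y _
  obtain ⟨x, rfl⟩ := Submodule.Quotient.mk_surjective _ y
  obtain ⟨r, hr⟩ := exists_sub_smul_mem σ hgen I1 hev x
  have h1 : (Submodule.Quotient.mk x : Q1 M σ) = Submodule.Quotient.mk (x - r • σ.1.2) := by
    have h0 : (Submodule.Quotient.mk (r • σ.1.2) : Q1 M σ) = 0 := by
      rw [Submodule.Quotient.mk_eq_zero]
      exact Submodule.smul_mem _ r (Submodule.subset_span rfl)
    rw [Submodule.Quotient.mk_sub, h0, sub_zero]
  rw [h1]
  have hmap : (I1 • ⊤ : Submodule R1 M.N1).map (Submodule.span R1 {σ.1.2}).mkQ ≤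
      (I1 • ⊤ : Submodule R1 (Q1 M σ)) := by
    rw [Submodule.map_smul'']
    exact Submodule.smul_mono le_rfl le_top
  exact hmap ⟨_, hr, rfl⟩

/-- **Claim 2.** If `σ` generates `H⁰(M)`, evaluation is surjective at each point `V(I i)`, and
every prime of `R1` containing `s` contains some `I i`, then `s` acts surjectively on
`N1 / R1 σ1`. -/
theorem s_surjective_Q1 [Module.Finite R1 M.N1] (σ : M.H0)
    (hgen : ∀ τ : M.H0, ∃ a : A, τ = a • σ) {ι : Type*} (I : ι → Ideal R1)
    (hev : ∀ i, Function.Surjective (ev M (I i)))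
    (hInf : ∀ P : Ideal R1, P.IsPrime → c.s ∈ P → ∃ i, I i ≤ P) :
    ∀ y : Q1 M σ, ∃ y' : Q1 M σ, c.s • y' = y := by
  have hsupp : ∀ i, Module.support R1 (Q1 M σ) ∩ PrimeSpectrum.zeroLocus (I i) = ∅ := by
    intro i
    rw [← Module.support_quotient, Module.support_eq_empty_iff,
      Submodule.Quotient.subsingleton_iff]
    exact smul_top_Q1_eq_top σ hgen (I i) (hev i)
  have hempty : Module.support R1 (QuotSMulTop c.s (Q1 M σ)) = ∅ := by
    rw [Module.support_quotSMulTop, Set.eq_empty_iff_forall_notMem]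
    rintro P ⟨hP1, hP2⟩
    have hsP : c.s ∈ P.asIdeal := by
      simpa [PrimeSpectrum.mem_zeroLocus] using hP2
    obtain ⟨i, hi⟩ := hInf P.asIdeal P.2 hsP
    have : P ∈ Module.support R1 (Q1 M σ) ∩ PrimeSpectrum.zeroLocus (I i) :=
      ⟨hP1, (PrimeSpectrum.mem_zeroLocus _ _).2 hi⟩
    rw [hsupp i] at this
    exact this
  rw [Module.support_eq_empty_iff, Submodule.Quotient.subsingleton_iff] at hempty
  intro y
  have hy : y ∈ c.s • (⊤ : Submodule R1 (Q1 M σ)) := by rw [hempty]; exact Submodule.mem_top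
  obtain ⟨y', -, rfl⟩ := (Submodule.mem_smul_pointwise_iff_exists _ _ _).1 hy
  exact ⟨y', rfl⟩

end Fermat.Agent.Jac.SectionOfChart14
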