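/-
Fermat/Agent/Jac/SectionOfChart14/Inject.lean  (helper14, programme JAC, brick R2a-1)

Blueprint 271, Claim 3 (wiring).  Let `σ` be a global section of `M` whose value at a point at
infinity is a generator (`φ σ.1.2 = 1` for an `A`-linear functional `φ` on `N1`).  Then `σ.1.2` and
`σ.1.1` are nonzero in every fibre `K ⊗[A] N1`, `K ⊗[A] N0` (`K` a nontrivial `A`-algebra), and by
the McCoy-type lemma of `FlatBC60McCoy` multiplication by `σ` is injective on `R0`, `R1`, `R01`.
-/
import Fermat.Agent.Jac.SectionOfChart14.Main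
import Fermat.Agent.Jac.LineOps39.Section
import Fermat.Agent.Jac.FlatBC60McCoy

set_option autoImplicit false
set_option linter.unusedSectionVars false

universe u

open TensorProduct Polynomial

namespace Fermat.Agent.Jac.SectionOfChart14

open Fermat.Agent.Jac.LineOps39 Fermat.Agent.Jac.Riemann4 Fermat.Agent.Jac.P1CohChi

variable {A R0 R1 R01 : Type u} [CommRing A] [CommRing R0] [CommRing R1] [CommRing R01]
  [Algebra A R0] [Algebra A R1] [Algebra A R01] [Algebra R0 R01] [Algebra R1 R01]
  [IsScalarTower A R0 R01] [IsScalarTower A R1 R01]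

section General

variable {R N : Type u} [CommRing R] [Algebra A R] [AddCommGroup N] [Module A N] [Module R N]
  [IsScalarTower A R N]

/-- If `x ⊗ 1 = 0` in `N ⊗[A] K` and `φ x = 1` for a functional `φ : N → A`, then `K` is trivial. -/
theorem tmul_one_ne_zero_of_functional (x : N) (φ : N →ₗ[A] A) (hφ : φ x = 1)
    (K : Type u) [CommRing K] [Algebra A K] [Nontrivial K] : x ⊗ₜ[A] (1 : K) ≠ 0 := by
  intro h
  have h1 := congrArg (TensorProduct.lid A K ∘ φ.rTensor K) h
  simp only [Function.comp_apply, LinearMap.rTensor_tmul, hφ, TensorProduct.lid_tmul, one_smul,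
    map_zero] at h1
  exact one_ne_zero h1

/-- Powers of `s` act injectively on `N ⊗[A] K` when `N` is finite projective over `A[X]`
(`X ↦ s`): on simple tensors. -/
theorem tmul_one_eq_zero_of_pow_smul (s : R) [Module.Finite A[X] (Module.AEval A N s)]
    [Module.Projective A[X] (Module.AEval A N s)] (K : Type u) [CommRing K] [Algebra A K]
    (x : N) (n : ℕ) (h : (s ^ n • x) ⊗ₜ[A] (1 : K) = 0) : x ⊗ₜ[A] (1 : K) = 0 := by
  have hreg : IsSMulRegular N s := Fibre.isSMulRegular_of_projective (A := A) s
  have := Fibre.projective_quotient A s N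
  obtain ⟨ρ, hρ⟩ := Complex.exists_leftInverse_of_projective_coker
    ((LinearMap.lsmul R N s).restrictScalars A) hreg
  have hρ' : ∀ y : N, ρ (s • y) = y := fun y => LinearMap.congr_fun hρ y
  induction n with
  | zero => simpa using h
  | succ n ih =>
    apply ih
    have h1 := congrArg (ρ.rTensor K) h
    rw [LinearMap.rTensor_tmul, map_zero, pow_succ', mul_smul, hρ'] at h1
    exact h1

end General

variable (c : TwoChart A R0 R1 R01) {M : QC2 A R0 R1 R01}

/-- `σ.1.2` is nonzero in every fibre. -/
theorem one_tmul_sigma1_ne_zero (σ : M.H0) (φ : M.N1 →ₗ[A] A) (hφ : φ σ.1.2 = 1)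
    (K : Type u) [CommRing K] [Algebra A K] [Nontrivial K] : (1 : K) ⊗ₜ[A] σ.1.2 ≠ 0 := by
  intro h
  have h1 := congrArg (TensorProduct.comm A K M.N1) h
  rw [TensorProduct.comm_tmul, map_zero] at h1
  exact tmul_one_ne_zero_of_functional σ.1.2 φ hφ K h1

/-- `σ.1.1` is nonzero in every fibre: the restriction of a fibrewise nonzero section to the
finite chart is fibrewise nonzero. -/
theorem one_tmul_sigma0_ne_zero [Module.Finite A[X] (Module.AEval A M.N1 c.s)]
    [Module.Projective A[X] (Module.AEval A M.N1 c.s)] (σ : M.H0) (φ : M.N1 →ₗ[A] A)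
    (hφ : φ σ.1.2 = 1) (K : Type u) [CommRing K] [Algebra A K] [Nontrivial K] :
    (1 : K) ⊗ₜ[A] σ.1.1 ≠ 0 := by
  intro h
  have h0 : σ.1.1 ⊗ₜ[A] (1 : K) = 0 := by
    have h1 := congrArg (TensorProduct.comm A K M.N0) h
    rwa [TensorProduct.comm_tmul, map_zero] at h1
  -- push to the overlap
  have h01 : (M.r1 σ.1.2) ⊗ₜ[A] (1 : K) = 0 := by
    have h1 := congrArg ((M.r0.restrictScalars A).rTensor K) h0
    rw [LinearMap.rTensor_tmul, map_zero, LinearMap.coe_restrictScalars, H0_compat] at h1
    exact h1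
  -- the kernel of the localisation `N1 ⊗ K → N01 ⊗ K` is `s`-power torsion
  have hloc := isLocalizedModule_r1 c M
  have hloc' : IsLocalizedModule (Submonoid.powers c.s)
      (AlgebraTensorModule.rTensor A K M.r1) := inferInstance
  have h2 : (AlgebraTensorModule.rTensor A K M.r1) (σ.1.2 ⊗ₜ[A] (1 : K)) = 0 := by
    rw [AlgebraTensorModule.rTensor_tmul]
    exact h01
  obtain ⟨⟨_, n, rfl⟩, hn⟩ := (IsLocalizedModule.eq_zero_iff (Submonoid.powers c.s)
    (AlgebraTensorModule.rTensor A K M.r1)).1 h2
  have h3 : (c.s ^ n • σ.1.2) ⊗ₜ[A] (1 : K) = 0 := by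
    rw [← TensorProduct.smul_tmul']
    exact hn
  have h4 := tmul_one_eq_zero_of_pow_smul c.s K σ.1.2 n h3
  exact tmul_one_ne_zero_of_functional σ.1.2 φ hφ K h4

/-- **Claim 3.** Multiplication by a section which generates the fibre at a point at infinity is
injective on all three charts, provided `R0`, `R1` are free over `A` with integral fibres and the
chart modules are projective. -/
theorem smul_sigma_injective [Module.Finite A[X] (Module.AEval A M.N1 c.s)]
    [Module.Projective A[X] (Module.AEval A M.N1 c.s)]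
    [Module.Free A R0] [Module.Free A R1]
    (hdom0 : ∀ p : PrimeSpectrum A, IsDomain (p.asIdeal.ResidueField ⊗[A] R0))
    (hdom1 : ∀ p : PrimeSpectrum A, IsDomain (p.asIdeal.ResidueField ⊗[A] R1))
    [Module.Projective R0 M.N0] [Module.Projective R1 M.N1]
    (σ : M.H0) (φ : M.N1 →ₗ[A] A) (hφ : φ σ.1.2 = 1) :
    Function.Injective (homOfSection M σ).f0 ∧ Function.Injective (homOfSection M σ).f1 ∧
      Function.Injective (homOfSection M σ).f01 := by
  have h0 : Function.Injective (homOfSection M σ).f0 :=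
    FlatBC60McCoy.smul_injective_of_fibrewise_ne_zero hdom0 σ.1.1
      (fun p => one_tmul_sigma0_ne_zero c σ φ hφ _)
  have h1 : Function.Injective (homOfSection M σ).f1 :=
    FlatBC60McCoy.smul_injective_of_fibrewise_ne_zero hdom1 σ.1.2
      (fun p => one_tmul_sigma1_ne_zero σ φ hφ _)
  exact ⟨h0, h1, f01_injective_of c (homOfSection M σ) h0⟩

end Fermat.Agent.Jac.SectionOfChart14
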