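/-
Fermat/Agent/Jac/SectionOfChart14/Quot.lean  (helper14, programme JAC, brick R2a-1)

Blueprint 271, Claim 2 (end): the quotient `Q = M / σ·O` of a two-chart module by a global section
`σ` generating `M` near infinity.  `H¹(Q) = 0`, `H⁰(Q) ≃ N0 / R0 σ0`, which is a finite `A`-module,
and `Q.r1` is bijective.
-/
import Fermat.Agent.Jac.SectionOfChart14.Generate
import Fermat.Agent.Jac.FlatBC60Support

set_option autoImplicit false
set_option linter.unusedSectionVars false

universe u

open TensorProduct Polynomial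

namespace Fermat.Agent.Jac.SectionOfChart14

open Fermat.Agent.Jac.LineOps39 Fermat.Agent.Jac.Riemann4 Fermat.Agent.Jac.P1CohChi

variable {A R0 R1 R01 : Type u} [CommRing A] [CommRing R0] [CommRing R1] [CommRing R01]
  [Algebra A R0] [Algebra A R1] [Algebra A R01] [Algebra R0 R01] [Algebra R1 R01]
  [IsScalarTower A R0 R01] [IsScalarTower A R1 R01]

/-- Finiteness over `A[X]` passes to quotients (images) along `R`-linear surjections. -/
theorem finite_aeval_of_surjective {R N N' : Type u} [CommRing R] [Algebra A R] [AddCommGroup N]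
    [AddCommGroup N'] [Module A N] [Module R N] [IsScalarTower A R N] [Module A N'] [Module R N']
    [IsScalarTower A R N'] (t : R) (f : N →ₗ[R] N') (hf : Function.Surjective f)
    (h : Module.Finite A[X] (Module.AEval A N t)) : Module.Finite A[X] (Module.AEval A N' t) := by
  let g : Module.AEval A N t →ₗ[A[X]] Module.AEval A N' t :=
    LinearMap.ofAEval t ((Module.AEval.of A N' t).toLinearMap ∘ₗ f.restrictScalars A) (by
      intro m
      simp only [LinearMap.coe_comp, LinearEquiv.coe_coe, LinearMap.coe_restrictScalars,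
        Function.comp_apply, map_smul]
      exact (Module.AEval.X_smul_of t (f m)).symm)
  refine Module.Finite.of_surjective g ?_
  intro y
  obtain ⟨x, hx⟩ := hf ((Module.AEval.of A N' t).symm y)
  refine ⟨Module.AEval.of A N t x, ?_⟩
  show Module.AEval.of A N' t (f ((Module.AEval.of A N t).symm (Module.AEval.of A N t x))) = y
  rw [LinearEquiv.symm_apply_apply, hx, LinearEquiv.apply_symm_apply]

variable (c : TwoChart A R0 R1 R01) (M : QC2 A R0 R1 R01)

/-- Quotients of a two-chart module that is finite over the line are finite over the line. -/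
theorem finiteOverLine_quot (P : SubPair M) (hF : M.FiniteOverLine c) :
    (quot c M P).FiniteOverLine c where
  fin0 := finite_aeval_of_surjective c.t P.S0.mkQ (Submodule.mkQ_surjective _) hF.fin0
  fin1 := finite_aeval_of_surjective c.s P.S1.mkQ (Submodule.mkQ_surjective _) hF.fin1

lemma span_image_span_singleton {R S N N' : Type*} [CommRing R] [CommRing S] [Algebra R S]
    [AddCommGroup N] [AddCommGroup N'] [Module R N] [Module R N'] [Module S N']
    [IsScalarTower R S N'] (f : N →ₗ[R] N') (x : N) :
    Submodule.span S (f '' (Submodule.span R {x} : Set N)) = Submodule.span S {f x} := by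
  apply le_antisymm
  · rw [Submodule.span_le]
    rintro _ ⟨y, hy, rfl⟩
    obtain ⟨r, rfl⟩ := Submodule.mem_span_singleton.1 hy
    rw [map_smul, ← algebraMap_smul S r (f x)]
    exact Submodule.smul_mem _ _ (Submodule.subset_span rfl)
  · rw [Submodule.span_le, Set.singleton_subset_iff]
    exact Submodule.subset_span ⟨x, Submodule.subset_span rfl, rfl⟩

variable {M}

/-- The sub-pair `σ·O ⊆ M` generated by a global section. -/
def sectionPair (σ : M.H0) : SubPair M where
  S0 := Submodule.span R0 {σ.1.1}
  S1 := Submodule.span R1 {σ.1.2}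
  compat := by
    have hσ : M.r0 σ.1.1 = M.r1 σ.1.2 := by
      have h : M.d σ.1 = 0 := σ.2
      rw [Basic.d_apply, sub_eq_zero] at h
      exact h
    rw [span_image_span_singleton, span_image_span_singleton, hσ]

/-- The quotient `M / σ·O`. -/
def sectionQuot (σ : M.H0) : QC2 A R0 R1 R01 := quot c M (sectionPair σ)

/-- The inclusion `σ·O → M`. -/
def sectionSubHom (σ : M.H0) : QC2.Hom (sub c M (sectionPair σ)) M := subHom c M (sectionPair σ)

/-- The projection `M → M / σ·O`. -/
def sectionQuotHom (σ : M.H0) : QC2.Hom M (sectionQuot c σ) := quotHom c M (sectionPair σ)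

theorem sectionQuot_finiteOverLine (σ : M.H0) (hF : M.FiniteOverLine c) :
    (sectionQuot c σ).FiniteOverLine c :=
  finiteOverLine_quot c M (sectionPair σ) hF

/-- **Claim 2, conclusion.**  If `σ` generates `H⁰(M)`, evaluation is surjective at each point
`V(I i)` at infinity and these points exhaust the primes of `R1` containing `s`, then the quotient
`Q = M / σ·O` has `H¹(Q) = 0`, bijective `r1`, `H⁰(Q) ≃ N0 / R0 σ0`, and `N0 / R0 σ0` is a finite
`A`-module. -/
theorem sectionQuot_props [Module.Finite R1 M.N1] (hF : M.FiniteOverLine c) (σ : M.H0)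
    (hgen : ∀ τ : M.H0, ∃ a : A, τ = a • σ) {ι : Type*} (I : ι → Ideal R1)
    (hev : ∀ i, Function.Surjective (ev M (I i)))
    (hInf : ∀ P : Ideal R1, P.IsPrime → c.s ∈ P → ∃ i, I i ≤ P) :
    Subsingleton (sectionQuot c σ).H1 ∧ Function.Bijective (sectionQuot c σ).r1 ∧
      Module.Finite A (Q0 M σ) ∧ Nonempty ((sectionQuot c σ).H0 ≃ₗ[A] Q0 M σ) := by
  have hQF := sectionQuot_finiteOverLine c σ hF
  have hs : ∀ y : (sectionQuot c σ).N1, ∃ y' : (sectionQuot c σ).N1, c.s • y' = y :=
    s_surjective_Q1 c σ hgen I hev hInf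
  exact ⟨FlatBC60Support.subsingleton_H1_of_s_surjective c _ hQF.fin1 hs,
    FlatBC60Support.r1_bijective_of_s_surjective c _ hQF.fin1 hs,
    FlatBC60Support.finite_N0_of_s_surjective c _ hQF hs,
    ⟨FlatBC60Support.H0EquivN0 c _ hQF.fin1 hs⟩⟩

/-- The isomorphism `H⁰(M / σ·O) ≃ N0 / R0 σ0`, `x ↦ x.1.1`. -/
noncomputable def sectionQuotH0Equiv [Module.Finite R1 M.N1] (hF : M.FiniteOverLine c) (σ : M.H0)
    (hgen : ∀ τ : M.H0, ∃ a : A, τ = a • σ) {ι : Type*} (I : ι → Ideal R1)
    (hev : ∀ i, Function.Surjective (ev M (I i)))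
    (hInf : ∀ P : Ideal R1, P.IsPrime → c.s ∈ P → ∃ i, I i ≤ P) :
    (sectionQuot c σ).H0 ≃ₗ[A] Q0 M σ :=
  FlatBC60Support.H0EquivN0 c _ (sectionQuot_finiteOverLine c σ hF).fin1
    (s_surjective_Q1 c σ hgen I hev hInf)

end Fermat.Agent.Jac.SectionOfChart14
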