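/-
Fermat/Agent/Jac/SectionOfChart14/Main.lean  (helper14, programme JAC, brick R2a-1)

Blueprint 271, Claims 1-2 assembled.  Data: a two-chart ring `c`, a two-chart module `M` finite and
projective over the line with `χ(M_p) = 1` for all `p`, a family of points at infinity
(`InfPoints`), one of which (`i₀`) carries a rigidification `ρ` of `M`, and `H¹(M(-Q_i)) = 0` for
all `i`.  Conclusion: `H¹(M) = 0`, `H⁰(M)` is free of rank one on the section `σ` normalised by
`ρ(σ(Q_{i₀})) = 1` (and commutes with base change), and the quotient `Q = M/σ·O` has `H¹(Q) = 0`,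
`H⁰(Q) ≃ N0/R0 σ0` finite over `A`, `Q.r1` bijective.
-/
import Fermat.Agent.Jac.SectionOfChart14.Quot

set_option autoImplicit false
set_option linter.unusedSectionVars false

universe u

open TensorProduct Polynomial

namespace Fermat.Agent.Jac.SectionOfChart14

open Fermat.Agent.Jac.LineOps39 Fermat.Agent.Jac.Riemann4 Fermat.Agent.Jac.P1CohChi

variable {A R0 R1 R01 : Type u} [CommRing A] [CommRing R0] [CommRing R1] [CommRing R01]
  [Algebra A R0] [Algebra A R1] [Algebra A R01] [Algebra R0 R01] [Algebra R1 R01]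
  [IsScalarTower A R0 R01] [IsScalarTower A R1 R01]

/-- A family of points at infinity exhausting the divisor `s = 0` of chart 1. -/
structure InfPoints (c : TwoChart A R0 R1 R01) (ι : Type*) where
  /-- the ideals of the points -/
  I : ι → Ideal R1
  s_mem : ∀ i, c.s ∈ I i
  exhaust : ∀ P : Ideal R1, P.IsPrime → c.s ∈ P → ∃ i, I i ≤ P

variable (c : TwoChart A R0 R1 R01)

/-- `H¹(L) = 0` iff all fibrewise `H¹` vanish (for `L` finite over the line). -/
theorem subsingleton_H1_iff_fibrewise (L : QC2 A R0 R1 R01) (hF : L.FiniteOverLine c) :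
    Subsingleton L.H1 ↔
      ∀ p : PrimeSpectrum A, Subsingleton (L.H1BC p.asIdeal.ResidueField) := by
  constructor
  · intro h p
    exact P1CohH1.subsingleton_H1BC L h _
  · intro h
    have h1 : {p : PrimeSpectrum A | Subsingleton (L.H1BC p.asIdeal.ResidueField)} = Set.univ :=
      Set.eq_univ_of_forall h
    rw [P1CohH1.setOf_subsingleton_H1BC_residueField_eq c L hF, Set.compl_univ_iff] at h1
    exact Module.support_eq_empty_iff.1 h1

variable (M : QC2 A R0 R1 R01)

/-- The normalised generator of `H⁰(M)`. -/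
noncomputable def theSection (hF : M.FiniteOverLine c) (hP : M.ProjOverLine c)
    (hchi : ∀ p : PrimeSpectrum A, M.chi p = 1) {ι : Type*} (pts : InfPoints c ι) (i₀ : ι)
    (ρ : Fib M (pts.I i₀) ≃ₗ[A] A)
    (h1 : Subsingleton (downTwist c M (ptPair c (pts.I i₀))).H1) : M.H0 :=
  (H0EquivOfRigid c M hF hP hchi (pts.s_mem i₀) ρ h1).symm 1

/-- **Blueprint 271, Claims 1-2.** -/
theorem section_of_chart [Module.Finite R1 M.N1] (hF : M.FiniteOverLine c)
    (hP : M.ProjOverLine c) (hchi : ∀ p : PrimeSpectrum A, M.chi p = 1) {ι : Type*}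
    (pts : InfPoints c ι) (i₀ : ι) (ρ : Fib M (pts.I i₀) ≃ₗ[A] A)
    (h1 : ∀ i, Subsingleton (downTwist c M (ptPair c (pts.I i))).H1) :
    Subsingleton M.H1 ∧ GoodH0 M ∧
    ∃ σ : M.H0, ρ (Submodule.Quotient.mk σ.1.2) = 1 ∧
      (∀ τ : M.H0, τ = (H0EquivOfRigid c M hF hP hchi (pts.s_mem i₀) ρ (h1 i₀) τ) • σ) ∧
      (∀ a : A, a • σ = 0 → a = 0) ∧
      Subsingleton (sectionQuot c σ).H1 ∧ Function.Bijective (sectionQuot c σ).r1 ∧
      Module.Finite A (Q0 M σ) ∧ Nonempty ((sectionQuot c σ).H0 ≃ₗ[A] Q0 M σ) := by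
  have hH1 : Subsingleton M.H1 := subsingleton_H1 c M (pts.s_mem i₀) (h1 i₀)
  obtain ⟨hgood, -⟩ := rankAtStalk_H0 c M hF hP hH1
  refine ⟨hH1, hgood, ?_⟩
  set e := H0EquivOfRigid c M hF hP hchi (pts.s_mem i₀) ρ (h1 i₀) with he
  set σ : M.H0 := e.symm 1 with hσ
  have hgen' : ∀ τ : M.H0, τ = (e τ) • σ := by
    intro τ
    apply e.injective
    rw [map_smul, hσ, LinearEquiv.apply_symm_apply, smul_eq_mul, mul_one]
  have hgen : ∀ τ : M.H0, ∃ a : A, τ = a • σ := fun τ => ⟨e τ, hgen' τ⟩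
  have hev : ∀ i, Function.Surjective (ev M (pts.I i)) :=
    fun i => ev_surjective c M (pts.s_mem i) (h1 i)
  obtain ⟨q1, q2, q3, q4⟩ := sectionQuot_props c hF σ hgen pts.I hev pts.exhaust
  refine ⟨σ, ?_, hgen', ?_, q1, q2, q3, q4⟩
  · have : e σ = 1 := by rw [hσ, LinearEquiv.apply_symm_apply]
    rw [he, H0EquivOfRigid_apply] at this
    exact this
  · intro a ha
    have := congrArg e ha
    rw [map_smul, hσ, LinearEquiv.apply_symm_apply, map_zero, smul_eq_mul, mul_one] at this
    exact this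

end Fermat.Agent.Jac.SectionOfChart14
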